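import Fermat.Agent.Root.SummarySumTwoCubes
import Fermat.Agent.Root.SummaryNeronTateHeight

/-!
# Many integral points on `x³ + y³ = m`

The `(n + 1) ^ r` combinations of `r` independent points have heights `O (n²)`; clearing their
denominators at once gives an `m` with `log m = O (n ^ (r + 2))`.
-/

set_option autoImplicit false

noncomputable section

open WeierstrassCurve Height Finset

namespace FA.SilvermanCubes

open FA.MordellCurve

theorem solutions_finite {m : ℤ} (hm : m ≠ 0) :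
    {q : ℤ × ℤ | q.1 ^ 3 + q.2 ^ 3 = m}.Finite := by
  refine ((Set.finite_Icc (-(2 * |m|)) (2 * |m|)).prod
    (Set.finite_Icc (-(2 * |m|)) (2 * |m|))).subset fun q hq => ?_
  obtain ⟨x, y⟩ := q
  have hq' : x ^ 3 + y ^ 3 = m := hq
  have hd : x ^ 2 - x * y + y ^ 2 ∣ m := ⟨x + y, by linear_combination -hq'⟩
  have hle : x ^ 2 - x * y + y ^ 2 ≤ |m| := Int.le_of_dvd (abs_pos.2 hm) ((dvd_abs _ _).2 hd)
  have h1 : 1 ≤ |m| := abs_pos.2 hm
  have hx : |x| ≤ 2 * |m| := by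
    refine (abs_le_of_sq_le_sq ?_ (by linarith))
    nlinarith [sq_nonneg (x - 2 * y)]
  have hy : |y| ≤ 2 * |m| := by
    refine (abs_le_of_sq_le_sq ?_ (by linarith))
    nlinarith [sq_nonneg (2 * x - y)]
  exact ⟨Set.mem_Icc.2 (abs_le.1 hx), Set.mem_Icc.2 (abs_le.1 hy)⟩

/-- The pair `(u, v)` of a point. -/
def cubeCoord (M : ℕ) : (mordCurve (-432 * (M : ℤ) ^ 2)).toAffine.Point → ℚ × ℚ
  | 0 => (0, 0)
  | .some x y _ => ((36 * (M : ℚ) + y) / (6 * x), (36 * (M : ℚ) - y) / (6 * x))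

theorem curve_eq {M : ℕ} {x y : ℚ}
    (h : (mordCurve (-432 * (M : ℤ) ^ 2)).toAffine.Nonsingular x y) :
    y ^ 2 = x ^ 3 - 432 * (M : ℚ) ^ 2 := by
  have e := (Affine.equation_iff x y).mp h.1
  push_cast at e
  linear_combination e

theorem x_ne_zero {M : ℕ} (hM : 0 < M) {x y : ℚ}
    (h : (mordCurve (-432 * (M : ℤ) ^ 2)).toAffine.Nonsingular x y) : x ≠ 0 := by
  rintro rfl
  have hM' : (0 : ℚ) < M := Nat.cast_pos.2 hM
  nlinarith [curve_eq h, sq_nonneg y, mul_pos hM' hM']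

/-- The common denominator of the pair of a point is at most `6 H³`. -/
theorem exists_denominator {M : ℕ} (hM : 0 < M)
    (Q : (mordCurve (-432 * (M : ℤ) ^ 2)).toAffine.Point) (hQ : Q ≠ 0) :
    ∃ (d : ℕ) (a b : ℤ), 0 < d ∧ Real.log d ≤ Real.log 6 + 3 * logHeight Q.xRep ∧
      (d : ℚ) * (cubeCoord M Q).1 = a ∧ (d : ℚ) * (cubeCoord M Q).2 = b ∧
      (cubeCoord M Q).1 ^ 3 + (cubeCoord M Q).2 ^ 3 = M := by
  rcases Q with _ | ⟨x, y, h⟩
  · exact absurd rfl hQ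
  have hx := x_ne_zero hM h
  have he := curve_eq h
  have hden : y.den ^ 2 = x.den ^ 3 := by
    rw [← Rat.den_pow, ← Rat.den_pow, he,
      show x ^ 3 - 432 * (M : ℚ) ^ 2 = x ^ 3 + ((-432 * (M : ℤ) ^ 2 : ℤ) : ℚ) by push_cast; ring,
      Rat.add_intCast_den]
  have hyx : y.den ≤ x.den ^ 2 := by
    refine (Nat.pow_le_pow_iff_left two_ne_zero).1 ?_
    rw [hden, ← pow_mul]
    exact Nat.pow_le_pow_right x.pos (by norm_num)
  set e : ℤ := 6 * x.num * y.den with he'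
  have he0 : e ≠ 0 := mul_ne_zero (mul_ne_zero (by norm_num) (Rat.num_ne_zero.2 hx))
    (Int.natCast_ne_zero.2 y.den_nz)
  set A : ℤ := (36 * M * y.den + y.num) * x.den
  set B : ℤ := (36 * M * y.den - y.num) * x.den
  have hyd : (y.den : ℚ) ≠ 0 := Nat.cast_ne_zero.2 y.den_nz
  have hxd : (x.den : ℚ) ≠ 0 := Nat.cast_ne_zero.2 x.den_nz
  have hxn : (x.num : ℚ) ≠ 0 := Int.cast_ne_zero.2 (Rat.num_ne_zero.2 hx)
  have h1 : (e : ℚ) * (cubeCoord M (.some x y h)).1 = A := by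
    simp only [cubeCoord, A, he']
    push_cast
    rw [← Rat.mul_den_eq_num x, ← Rat.mul_den_eq_num y]
    field_simp
  have h2 : (e : ℚ) * (cubeCoord M (.some x y h)).2 = B := by
    simp only [cubeCoord, B, he']
    push_cast
    rw [← Rat.mul_den_eq_num x, ← Rat.mul_den_eq_num y]
    field_simp
  have hcube : (cubeCoord M (.some x y h)).1 ^ 3 + (cubeCoord M (.some x y h)).2 ^ 3 = M := by
    simp only [cubeCoord]
    field_simp
    linear_combination 216 * (M : ℚ) * he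
  have hlog : logHeight (Affine.Point.some x y h :
      (mordCurve (-432 * (M : ℤ) ^ 2)).toAffine.Point).xRep =
      Real.log (max (x.num.natAbs : ℝ) x.den) := by
    show logHeight (![x, 1] : Fin 2 → ℚ) = _
    rw [← logHeight₁_eq_logHeight, Rat.logHeight₁_eq_log_max, Nat.cast_max]
  set H : ℝ := max (x.num.natAbs : ℝ) x.den
  have hnum : (1 : ℝ) ≤ x.num.natAbs :=
    Nat.one_le_cast.2 (Int.natAbs_pos.2 (Rat.num_ne_zero.2 hx))
  have hH : 1 ≤ H := hnum.trans (le_max_left _ _)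
  have hd : Real.log (e.natAbs : ℝ) ≤ Real.log 6 + 3 * Real.log H := by
    have hle : (e.natAbs : ℝ) ≤ 6 * H ^ 3 := by
      rw [he', Int.natAbs_mul, Int.natAbs_mul, Int.natAbs_natCast]
      push_cast
      rw [show H ^ 3 = H * H ^ 2 by ring, ← mul_assoc]
      refine mul_le_mul (mul_le_mul_of_nonneg_left ?_ (by norm_num)) ?_ (by positivity)
        (by positivity)
      · exact le_max_left _ _
      · exact (show (y.den : ℝ) ≤ (x.den : ℝ) ^ 2 by exact_mod_cast hyx).trans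
          (pow_le_pow_left₀ (Nat.cast_nonneg _) (le_max_right _ _) 2)
    refine (Real.log_le_log (Nat.cast_pos.2 (Int.natAbs_pos.2 he0)) hle).trans_eq ?_
    rw [Real.log_mul (by norm_num) (by positivity), Real.log_pow]
    push_cast
    ring
  rw [← hlog] at hd
  rcases Int.natAbs_eq e with hs | hs
  · refine ⟨e.natAbs, A, B, Int.natAbs_pos.2 he0, hd, ?_, ?_, hcube⟩ <;>
      rw [show (e.natAbs : ℚ) = (e : ℚ) by conv_rhs => rw [hs, Int.cast_natCast]]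
    exacts [h1, h2]
  · refine ⟨e.natAbs, -A, -B, Int.natAbs_pos.2 he0, hd, ?_, ?_, hcube⟩ <;>
      rw [show (e.natAbs : ℚ) = -(e : ℚ) by
        conv_rhs => rw [hs, Int.cast_neg, Int.cast_natCast, neg_neg]] <;>
      push_cast <;> rw [neg_mul, neg_inj]
    exacts [h1, h2]

theorem cubeCoord_injOn {M : ℕ} (hM : 0 < M) :
    Set.InjOn (cubeCoord M) {Q | Q ≠ 0} := by
  rintro (_ | ⟨x, y, h⟩) hQ (_ | ⟨x', y', h'⟩) hQ' e
  · rfl
  · exact absurd rfl hQ
  · exact absurd rfl hQ'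
  simp only [cubeCoord, Prod.mk.injEq] at e
  have hx := x_ne_zero hM h
  have hx' := x_ne_zero hM h'
  have hM' : (M : ℚ) ≠ 0 := Nat.cast_ne_zero.2 hM.ne'
  obtain ⟨e1, e2⟩ := e
  field_simp at e1 e2
  obtain rfl : x = x' := mul_left_cancel₀ (mul_ne_zero (by norm_num : (72 : ℚ) ≠ 0) hM')
    (by linear_combination -e1 - e2)
  obtain rfl : y = y' := mul_left_cancel₀ (mul_ne_zero (by norm_num : (2 : ℚ) ≠ 0) hx)
    (by linear_combination e1 - e2)
  rfl

/-- Finitely many points give as many solutions of one equation. -/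
theorem exists_equation {M : ℕ} (hM : 0 < M)
    (S : Finset (mordCurve (-432 * (M : ℤ) ^ 2)).toAffine.Point) (h0 : ∀ Q ∈ S, Q ≠ 0) {T : ℝ}
    (hT : ∀ Q ∈ S, logHeight Q.xRep ≤ T) :
    ∃ m : ℕ, 0 < m ∧ Real.log m ≤ Real.log M + 3 * (S.card * (Real.log 6 + 3 * T)) ∧
      S.card ≤ {q : ℤ × ℤ | q.1 ^ 3 + q.2 ^ 3 = (m : ℤ)}.ncard := by
  classical
  choose! d a b hd hdlog ha hb hsum using fun Q (hQ : Q ∈ S) => exists_denominator hM Q (h0 Q hQ)
  set D := ∏ Q ∈ S, d Q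
  have hD : 0 < D := prod_pos hd
  refine ⟨M * D ^ 3, by positivity, ?_, ?_⟩
  · have hlogD : Real.log (D : ℝ) ≤ S.card * (Real.log 6 + 3 * T) := by
      rw [show (D : ℝ) = ∏ Q ∈ S, (d Q : ℝ) by simp [D], Real.log_prod (fun Q hQ =>
        Nat.cast_ne_zero.2 (hd Q hQ).ne')]
      refine (sum_le_card_nsmul _ _ _ fun Q hQ => (hdlog Q hQ).trans ?_).trans_eq (nsmul_eq_mul _ _)
      linarith [hT Q hQ]
    push_cast
    rw [Real.log_mul (by positivity) (by positivity), Real.log_pow]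
    push_cast
    linarith
  set f : (mordCurve (-432 * (M : ℤ) ^ 2)).toAffine.Point → ℤ × ℤ :=
    fun Q => (((D / d Q : ℕ) : ℤ) * a Q, ((D / d Q : ℕ) : ℤ) * b Q)
  have hf : ∀ Q ∈ S, ((f Q).1 : ℚ) = D * (cubeCoord M Q).1 ∧
      ((f Q).2 : ℚ) = D * (cubeCoord M Q).2 := fun Q hQ => by
    have hdvd : d Q ∣ D := dvd_prod_of_mem _ hQ
    constructor <;>
      simp only [f, Int.cast_mul, Int.cast_natCast, ← ha Q hQ, ← hb Q hQ, ← mul_assoc,
        ← Nat.cast_mul, Nat.div_mul_cancel hdvd]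
  have hinj : Set.InjOn f S := fun Q hQ Q' hQ' e => by
    refine cubeCoord_injOn hM (h0 Q hQ) (h0 Q' hQ') (Prod.ext ?_ ?_) <;>
      refine mul_left_cancel₀ (Nat.cast_ne_zero.2 hD.ne' : (D : ℚ) ≠ 0) ?_
    · rw [← (hf Q hQ).1, ← (hf Q' hQ').1, e]
    · rw [← (hf Q hQ).2, ← (hf Q' hQ').2, e]
  rw [← card_image_of_injOn hinj, ← Set.ncard_coe_finset]
  refine Set.ncard_le_ncard (fun q hq => ?_)
    (solutions_finite (Int.natCast_ne_zero.2 (by positivity)))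
  obtain ⟨Q, hQ, rfl⟩ := mem_image.1 hq
  have : ((f Q).1 : ℚ) ^ 3 + ((f Q).2 : ℚ) ^ 3 = (((M * D ^ 3 : ℕ) : ℤ) : ℚ) := by
    rw [(hf Q hQ).1, (hf Q hQ).2]
    push_cast
    linear_combination (D : ℚ) ^ 3 * hsum Q hQ
  show (f Q).1 ^ 3 + (f Q).2 ^ 3 = _
  exact_mod_cast this

/-- A quadratic function at a sum. -/
theorem quadratic_sum_le {G : Type*} [AddCommGroup G] {f : G → ℝ}
    (hpar : ∀ P Q, f (P + Q) + f (P - Q) = 2 * (f P + f Q)) (hnn : ∀ P, 0 ≤ f P) (h0 : f 0 = 0)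
    {ι : Type*} (s : Finset ι) (g : ι → G) :
    f (∑ i ∈ s, g i) ≤ 2 ^ s.card * ∑ i ∈ s, f (g i) := by
  classical
  induction s using Finset.induction_on with
  | empty => simp [h0]
  | @insert j s hj ih =>
    rw [sum_insert hj, sum_insert hj, card_insert_of_notMem hj, pow_succ']
    have h1 := hpar (g j) (∑ i ∈ s, g i)
    have h2 := hnn (g j - ∑ i ∈ s, g i)
    have h3 : (1 : ℝ) ≤ 2 ^ s.card := one_le_pow₀ one_le_two
    nlinarith [hnn (g j)]

theorem silverman {M r : ℕ} (hM : 0 < M) (hr : 0 < r)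
    (P : Fin r → (mordCurve (-432 * (M : ℤ) ^ 2)).toAffine.Point) (hP : LinearIndependent ℤ P) :
    ∃ c : ℝ, 0 < c ∧ ∀ B : ℕ, ∃ m : ℕ, B < m ∧
      c * Real.log m ^ ((r : ℝ) / (r + 2)) ≤
        ({q : ℤ × ℤ | q.1 ^ 3 + q.2 ^ 3 = (m : ℤ)}.ncard : ℝ) := by
  classical
  have hk0 : (-432 * (M : ℤ) ^ 2) ≠ 0 :=
    mul_ne_zero (by norm_num) (pow_ne_zero _ (Int.natCast_ne_zero.2 hM.ne'))
  have := isElliptic_mordCurve hk0
  obtain ⟨f, ⟨hf, h2⟩, -⟩ := FA.Summary.canonicalHeight (mordCurve (-432 * (M : ℤ) ^ 2))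
  obtain ⟨hpar, hz, hnn, -, -⟩ :=
    FA.Summary.canonicalHeight_properties (mordCurve (-432 * (M : ℤ) ^ 2)) hf h2
  obtain ⟨C, hC⟩ := hf
  have h0 : f 0 = 0 := by simpa using hz 0 (P ⟨0, hr⟩)
  set F := ∑ i, f (P i)
  have hF : 0 ≤ F := sum_nonneg fun i _ => hnn _
  set A : ℝ := |Real.log M| + 3 * (Real.log 6 + 3 * (|C| + 2 ^ r * F)) + 1 with hA
  have hl6 : 0 < Real.log 6 := Real.log_pos (by norm_num)
  have hA0 : 0 < A := by positivity
  set θ : ℝ := (r : ℝ) / (r + 2)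
  have hθ : 0 ≤ θ := by positivity
  refine ⟨1 / (2 * A ^ θ), by positivity, fun B => ?_⟩
  -- the small right hand sides have few solutions in all
  set K := ∑ m ∈ Icc 1 B, {q : ℤ × ℤ | q.1 ^ 3 + q.2 ^ 3 = (m : ℤ)}.ncard
  set n := K + 1 with hn
  set V := (univ : Finset (Fin r → Fin (n + 1))).image fun v => ∑ i, ((v i : ℕ) : ℤ) • P i
  have hVc : V.card = (n + 1) ^ r := by
    rw [card_image_of_injective, card_univ, Fintype.card_fun, Fintype.card_fin, Fintype.card_fin]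
    intro v w e
    simp only at e
    have hvw := Fintype.linearIndependent_iff.1 hP (fun i => ((v i : ℕ) : ℤ) - (w i : ℕ))
      (by simp only [sub_smul, sum_sub_distrib]; exact sub_eq_zero.2 e)
    funext i
    exact Fin.ext (by exact_mod_cast sub_eq_zero.1 (hvw i))
  set S := V.erase 0
  have hS1 : (n + 1) ^ r - 1 ≤ S.card := hVc ▸ pred_card_le_card_erase
  have hS2 : S.card ≤ (n + 1) ^ r := hVc ▸ card_erase_le
  set T : ℝ := |C| + 2 ^ r * ((n : ℝ) ^ 2 * F) with hT'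
  have hT : ∀ Q ∈ S, logHeight Q.xRep ≤ T := fun Q hQ => by
    obtain ⟨v, -, rfl⟩ := mem_image.1 (mem_of_mem_erase hQ)
    have h1 := (abs_le.1 (hC (∑ i, ((v i : ℕ) : ℤ) • P i))).1
    have h3 := quadratic_sum_le hpar hnn h0 univ fun i => ((v i : ℕ) : ℤ) • P i
    have h4 : ∑ i, f (((v i : ℕ) : ℤ) • P i) ≤ (n : ℝ) ^ 2 * F := by
      rw [mul_sum]
      refine sum_le_sum fun i _ => ?_
      rw [hz, Int.cast_natCast]
      exact mul_le_mul_of_nonneg_right (pow_le_pow_left₀ (Nat.cast_nonneg _)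
        (Nat.cast_le.2 (Nat.le_of_lt_succ (v i).2)) 2) (hnn _)
    rw [card_univ, Fintype.card_fin] at h3
    have h5 := mul_le_mul_of_nonneg_left h4 (by positivity : (0 : ℝ) ≤ 2 ^ r)
    linarith [le_abs_self C]
  obtain ⟨m, hm, hlog, hcard⟩ := exists_equation hM S (fun Q hQ => ne_of_mem_erase hQ) hT
  have hn2 : n + 1 ≤ (n + 1) ^ r := Nat.le_self_pow hr.ne' _
  refine ⟨m, not_le.1 fun hmB => ?_, ?_⟩
  · have : {q : ℤ × ℤ | q.1 ^ 3 + q.2 ^ 3 = (m : ℤ)}.ncard ≤ K :=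
      single_le_sum (f := fun m : ℕ => {q : ℤ × ℤ | q.1 ^ 3 + q.2 ^ 3 = (m : ℤ)}.ncard)
        (fun _ _ => Nat.zero_le _) (mem_Icc.2 ⟨hm, hmB⟩)
    omega
  have hN1 : (1 : ℝ) ≤ (n : ℝ) + 1 := le_add_of_nonneg_left (Nat.cast_nonneg n)
  have hlogA : Real.log (m : ℝ) ≤ A * ((n : ℝ) + 1) ^ (r + 2) := by
    have hS2' : (S.card : ℝ) ≤ ((n : ℝ) + 1) ^ r := by exact_mod_cast hS2
    have e1 : (1 : ℝ) ≤ ((n : ℝ) + 1) ^ (r + 2) := one_le_pow₀ hN1
    have e2 : Real.log 6 + 3 * T ≤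
        (Real.log 6 + 3 * (|C| + 2 ^ r * F)) * ((n : ℝ) + 1) ^ 2 := by
      have h1 : (1 : ℝ) ≤ ((n : ℝ) + 1) ^ 2 := one_le_pow₀ hN1
      have hsq : (n : ℝ) ^ 2 ≤ ((n : ℝ) + 1) ^ 2 :=
        pow_le_pow_left₀ (Nat.cast_nonneg n) (by linarith) 2
      have := mul_le_mul_of_nonneg_left hsq (by positivity : (0 : ℝ) ≤ 2 ^ r * F)
      have := mul_le_mul_of_nonneg_left h1 (by positivity : (0 : ℝ) ≤ Real.log 6 + 3 * |C|)
      rw [hT']
      linarith
    have e3 := mul_le_mul hS2' e2 (by positivity) (by positivity)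
    have e4 := mul_le_mul_of_nonneg_left e1 (abs_nonneg (Real.log M))
    calc Real.log (m : ℝ) ≤ Real.log M + 3 * (S.card * (Real.log 6 + 3 * T)) := hlog
      _ ≤ |Real.log M| * ((n : ℝ) + 1) ^ (r + 2) + 3 * ((Real.log 6 + 3 * (|C| + 2 ^ r * F)) *
          ((n : ℝ) + 1) ^ (r + 2)) := by
        rw [pow_add] at e4 ⊢
        linarith [le_abs_self (Real.log M)]
      _ ≤ A * ((n : ℝ) + 1) ^ (r + 2) := by rw [hA]; nlinarith
  have hpow : Real.log (m : ℝ) ^ θ ≤ A ^ θ * ((n : ℝ) + 1) ^ r := by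
    refine (Real.rpow_le_rpow (Real.log_natCast_nonneg m) hlogA hθ).trans_eq ?_
    rw [Real.mul_rpow hA0.le (by positivity), ← Real.rpow_natCast _ (r + 2),
      ← Real.rpow_mul (by positivity), ← Real.rpow_natCast _ r]
    congr 2
    simp only [θ]
    push_cast
    field_simp
  rw [div_mul_eq_mul_div, one_mul, div_le_iff₀ (by positivity)]
  refine hpow.trans ?_
  have hn' : (((n + 1) ^ r : ℕ) : ℝ) ≤
      ((2 * {q : ℤ × ℤ | q.1 ^ 3 + q.2 ^ 3 = (m : ℤ)}.ncard : ℕ) : ℝ) := Nat.cast_le.2 (by omega)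
  push_cast at hn'
  linarith [mul_le_mul_of_nonneg_left hn' (Real.rpow_nonneg hA0.le θ)]

theorem exists_independent :
    ∃ P : Fin 1 → (mordCurve (-432 * ((7 : ℕ) : ℤ) ^ 2)).toAffine.Point,
      LinearIndependent ℤ P := by
  have := FA.SumTwoCubes.infinite_points (M := ((7 : ℕ) : ℤ)) (by norm_num) (u := 2) (v := -1)
    (by norm_num) (by norm_num) (by norm_num) (by norm_num)
  have := (natCard_torsion_dvd_six
    (show (-432 * ((7 : ℕ) : ℤ) ^ 2) ≠ 0 by norm_num)).1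
  obtain ⟨P, hP⟩ : ∃ P : (mordCurve (-432 * ((7 : ℕ) : ℤ) ^ 2)).toAffine.Point,
      ¬IsOfFinAddOrder P := by
    by_contra! h
    exact not_finite_iff_infinite.2 ‹Infinite _› (Finite.of_injective
      (fun Q => (⟨Q, h Q⟩ : AddCommGroup.torsion _)) fun Q Q' e => congrArg Subtype.val e)
  refine ⟨fun _ => P, Fintype.linearIndependent_iff.2 fun g hg i => ?_⟩
  rw [Fin.sum_univ_one] at hg
  obtain rfl : i = 0 := Subsingleton.elim _ _
  by_contra hne
  exact hP (isOfFinAddOrder_iff_zsmul_eq_zero.2 ⟨g 0, hne, hg⟩)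

end FA.SilvermanCubes

end
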